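/-
Programme T1a (S19), layer (A) ALG, brick A3 = GLUE (helper44).

`Descent`: **Galois descent for equivariant functions** on a finite set, generic and Mathlib-only.

`E/F` a Galois extension (possibly infinite), `G = E ≃ₐ[F] E`, `X` a finite set with an action
`act : G → X → X` which is trivial on `Gal(E/L)` for a finite normal `L/F`.  A function `f : X → E` is
equivariant if `f (act σ x) = σ (f x)`.

* `sum_map_smul_eq`, `coeff_fixed`, `coeff_mem_range` : the coefficients of an equivariant function
  in an `E`-independent family of equivariant functions are Galois-fixed, hence lie in `F`;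
* `exists_dual_family` (Dedekind): for `L/F` finite Galois there are `λ_i, μ_i ∈ L` with
  `∑ μ_i q(λ_i) = δ_{q,1}` for all `q ∈ Gal(L/F)`;
* `span_equivariant_eq_top` : the equivariant functions span `X → E` over `E` (trace trick);
* `exists_equivariant_basis` : there is an `E`-basis of `X → E` made of equivariant functions.
-/
import Mathlib

set_option autoImplicit false

noncomputable section

namespace Fermat.Agent.T1.Glue44.Descent

open Module

variable {F E : Type} [Field F] [Field E] [Algebra F E]
variable {X : Type} (act : (E ≃ₐ[F] E) → X → X)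

/-- `f (act σ x) = σ (f x)`. -/
def IsEquivariant (f : X → E) : Prop := ∀ (σ : E ≃ₐ[F] E) (x : X), f (act σ x) = σ (f x)

variable {act}

theorem IsEquivariant.add {f g : X → E} (hf : IsEquivariant act f) (hg : IsEquivariant act g) :
    IsEquivariant act (f + g) := fun σ x => by
  simp only [Pi.add_apply, map_add, hf σ x, hg σ x]

theorem IsEquivariant.mul {f g : X → E} (hf : IsEquivariant act f) (hg : IsEquivariant act g) :
    IsEquivariant act (f * g) := fun σ x => by
  simp only [Pi.mul_apply, map_mul, hf σ x, hg σ x]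

theorem IsEquivariant.base_smul {f : X → E} (hf : IsEquivariant act f) (c : F) :
    IsEquivariant act (c • f) := fun σ x => by
  simp only [Pi.smul_apply, hf σ x, Algebra.smul_def, map_mul, AlgEquiv.commutes]

theorem isEquivariant_zero : IsEquivariant act (0 : X → E) := fun σ x => by simp

theorem isEquivariant_sum {ι : Type} (s : Finset ι) (f : ι → X → E)
    (hf : ∀ i ∈ s, IsEquivariant act (f i)) : IsEquivariant act (∑ i ∈ s, f i) := by
  classical
  induction s using Finset.induction_on with
  | empty => simpa using isEquivariant_zero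
  | insert a t hat ih =>
    rw [Finset.sum_insert hat]
    exact (hf a (Finset.mem_insert_self a t)).add
      (ih fun i hi => hf i (Finset.mem_insert_of_mem hi))

/-! ### Coefficients of equivariant functions -/

/-- If `∑ c i • b i = f` with `b i` and `f` equivariant, then `∑ σ (c i) • b i = f`. -/
theorem sum_map_smul_eq {ι : Type} (b : ι → X → E) (hb : ∀ i, IsEquivariant act (b i))
    (hsurj : ∀ σ : E ≃ₐ[F] E, Function.Surjective (act σ))
    (s : Finset ι) (c : ι → E) (f : X → E) (hf : IsEquivariant act f)
    (h : ∑ i ∈ s, c i • b i = f) (σ : E ≃ₐ[F] E) : ∑ i ∈ s, σ (c i) • b i = f := by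
  funext y
  obtain ⟨x, rfl⟩ := hsurj σ y
  have h1 := congrFun h x
  simp only [Finset.sum_apply, Pi.smul_apply, smul_eq_mul] at h1 ⊢
  rw [hf σ x, ← h1, map_sum]
  refine Finset.sum_congr rfl fun i _ => ?_
  rw [map_mul, hb i σ x]

/-- The coefficients of an equivariant function in an independent equivariant family are
Galois-fixed. -/
theorem coeff_fixed {ι : Type} [Fintype ι] (b : ι → X → E) (hb : ∀ i, IsEquivariant act (b i))
    (hsurj : ∀ σ : E ≃ₐ[F] E, Function.Surjective (act σ)) (hli : LinearIndependent E b)
    (c : ι → E) (hf : IsEquivariant act (∑ i, c i • b i)) (σ : E ≃ₐ[F] E) (i : ι) :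
    σ (c i) = c i := by
  have h1 := sum_map_smul_eq b hb hsurj Finset.univ c _ hf rfl σ
  have h2 : ∑ i, (σ (c i) - c i) • b i = 0 := by
    simp only [sub_smul, Finset.sum_sub_distrib, h1, sub_self]
  exact sub_eq_zero.mp (Fintype.linearIndependent_iff.mp hli _ h2 i)

/-- ... hence lie in the base field. -/
theorem coeff_mem_range [IsGalois F E] {ι : Type} [Fintype ι] (b : ι → X → E)
    (hb : ∀ i, IsEquivariant act (b i))
    (hsurj : ∀ σ : E ≃ₐ[F] E, Function.Surjective (act σ)) (hli : LinearIndependent E b)
    (c : ι → E) (hf : IsEquivariant act (∑ i, c i • b i)) (i : ι) :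
    ∃ r : F, algebraMap F E r = c i :=
  (InfiniteGalois.mem_range_algebraMap_iff_fixed (k := F) (K := E) (c i)).mpr
    fun σ => coeff_fixed b hb hsurj hli c hf σ i

/-- An equivariant function has coordinates in `F` with respect to an equivariant basis. -/
theorem exists_coeff_base [IsGalois F E] {ι : Type} [Fintype ι] (b : ι → X → E)
    (hb : ∀ i, IsEquivariant act (b i))
    (hsurj : ∀ σ : E ≃ₐ[F] E, Function.Surjective (act σ)) (hli : LinearIndependent E b)
    (hspan : Submodule.span E (Set.range b) = ⊤) (f : X → E) (hf : IsEquivariant act f) :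
    ∃ c : ι → F, f = ∑ i, algebraMap F E (c i) • b i := by
  have hmem : f ∈ Submodule.span E (Set.range b) := by rw [hspan]; trivial
  obtain ⟨c, hc⟩ := (Submodule.mem_span_range_iff_exists_fun E).mp hmem
  have h := fun i => coeff_mem_range b hb hsurj hli c (by rw [hc]; exact hf) i
  choose r hr using h
  exact ⟨r, by rw [← hc]; exact Finset.sum_congr rfl fun i _ => by rw [hr]⟩

/-! ### Dedekind: a dual family -/

/-- **Dedekind.** For a finite normal `L/F` there are `λ_i, μ_i ∈ L` with
`∑ i, μ_i * q (λ_i) = δ_{q,1}` for all `q ∈ Gal(L/F)`. -/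
theorem exists_dual_family (L : Type) [Field L] [Algebra F L] [FiniteDimensional F L] :
    ∃ (n : ℕ) (lam mu : Fin n → L), (∑ i, mu i * lam i = 1) ∧
      ∀ q : L ≃ₐ[F] L, q ≠ 1 → ∑ i, mu i * q (lam i) = 0 := by
  classical
  -- the vectors `v λ = (q λ)_q`
  let v : L → ((L ≃ₐ[F] L) → L) := fun l q => q l
  have htop : Submodule.span L (Set.range v) = ⊤ := by
    by_contra hne
    obtain ⟨φ, hφ0, hφ⟩ := (Submodule.span L (Set.range v)).exists_le_ker_of_lt_top
      (lt_top_iff_ne_top.mpr hne)
    apply hφ0
    -- `φ g = ∑ q, g q * φ (single q 1)`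
    have hφv : ∀ l : L, ∑ q : L ≃ₐ[F] L, φ (Pi.single q 1) * q l = 0 := by
      intro l
      have h1 : φ (v l) = 0 := hφ (Submodule.subset_span ⟨l, rfl⟩)
      have h2 : v l = ∑ q : L ≃ₐ[F] L, (q l) • (Pi.single q 1 : (L ≃ₐ[F] L) → L) := by
        funext q'
        simp [v, Finset.sum_apply, Pi.single_apply]
      rw [h2, map_sum] at h1
      rw [← h1]
      refine Finset.sum_congr rfl fun q _ => ?_
      rw [map_smul, smul_eq_mul, mul_comm]
    -- Dedekind independence of the characters `q`
    have hli := linearIndependent_monoidHom L L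
    have hinj : Function.Injective (fun q : L ≃ₐ[F] L => ((q : L →ₐ[F] L) : L →* L)) := by
      intro q q' h
      ext l
      exact DFunLike.congr_fun h l
    have hli' := hli.comp _ hinj
    have hzero : ∀ q : L ≃ₐ[F] L, φ (Pi.single q 1) = 0 := by
      refine Fintype.linearIndependent_iff.mp hli' (fun q => φ (Pi.single q 1)) ?_
      funext l
      simpa [Finset.sum_apply] using hφv l
    apply LinearMap.ext
    intro g
    have hg : g = ∑ q : L ≃ₐ[F] L, (g q) • (Pi.single q 1 : (L ≃ₐ[F] L) → L) := by
      funext q'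
      simp [Finset.sum_apply, Pi.single_apply]
    rw [hg, map_sum]
    simp [hzero]
  -- `δ_1` is in the span
  have hmem : (Pi.single 1 1 : (L ≃ₐ[F] L) → L) ∈ Submodule.span L (Set.range v) := by
    rw [htop]; trivial
  obtain ⟨c, hc⟩ := (Finsupp.mem_span_range_iff_exists_finsupp).mp hmem
  -- reindex the finite support by `Fin n`
  let e := c.support.equivFin
  have key : ∀ q : L ≃ₐ[F] L, ∑ i : Fin c.support.card, c (e.symm i : L) * q (e.symm i : L) =
      (Pi.single 1 1 : (L ≃ₐ[F] L) → L) q := by
    intro q
    have h1 : (∑ l ∈ c.support, c l • v l) q = (Pi.single 1 1 : (L ≃ₐ[F] L) → L) q :=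
      congrFun hc q
    rw [Finset.sum_apply] at h1
    have h2 : ∑ i : Fin c.support.card, c (e.symm i : L) * q (e.symm i : L) =
        ∑ l ∈ c.support, c l * q l := by
      rw [← Finset.sum_coe_sort c.support (fun l => c l * q l)]
      exact Fintype.sum_equiv e.symm _ _ fun i => rfl
    rw [h2]
    have h3 : ∑ l ∈ c.support, c l * q l = ∑ l ∈ c.support, (c l • v l) q := by
      refine Finset.sum_congr rfl fun l _ => ?_
      simp [v]
    rw [h3, h1]
  refine ⟨c.support.card, fun i => (e.symm i : L), fun i => c (e.symm i : L), ?_, fun q hq => ?_⟩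
  · have := key 1
    simpa using this
  · rw [key q, Pi.single_eq_of_ne hq]

/-! ### The trace trick -/

section Span

variable [IsGalois F E] (act)
variable (hmul : ∀ σ τ x, act (σ * τ) x = act σ (act τ x))
variable (L : IntermediateField F E) [FiniteDimensional F L] [Normal F L]
  (hL : ∀ σ : E ≃ₐ[F] E, (∀ e ∈ L, σ e = e) → ∀ x, act σ x = x)

omit [IsGalois F E] [FiniteDimensional F L] [Normal F L] in
include hmul hL in
/-- Two automorphisms with the same restriction to `L` act in the same way on `X`. -/
theorem act_eq_of_agree (α β : E ≃ₐ[F] E) (h : ∀ e ∈ L, α e = β e) (x : X) :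
    act α x = act β x := by
  have h1 : α = β * (β⁻¹ * α) := by group
  rw [h1, hmul]
  congr 1
  refine hL _ (fun e he => ?_) x
  show β⁻¹ (α e) = e
  rw [h e he]
  exact β.symm_apply_apply e

include hmul hL in
/-- **Trace trick**: an `L`-valued function is in the `E`-span of the equivariant functions. -/
theorem mem_span_of_forall_mem (f : X → E) (hfL : ∀ x, f x ∈ L) :
    f ∈ Submodule.span E {a : X → E | IsEquivariant act a} := by
  classical
  obtain ⟨n, lam, mu, hdual1, hdual⟩ := exists_dual_family (F := F) L
  -- lifts of the elements of `Gal(L/F)`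
  let s : (L ≃ₐ[F] L) → (E ≃ₐ[F] E) := fun q => q.liftNormal E
  have hs : ∀ (q : L ≃ₐ[F] L) (l : L), s q (l : E) = ((q l : L) : E) := fun q l =>
    q.liftNormal_commutes E l
  have hsinv : ∀ (q : L ≃ₐ[F] L) (l : L), (s q)⁻¹ (l : E) = ((q.symm l : L) : E) := by
    intro q l
    have : (l : E) = s q ((q.symm l : L) : E) := by rw [hs, AlgEquiv.apply_symm_apply]
    conv_lhs => rw [this]
    exact (s q).symm_apply_apply _
  -- the twisted functions
  let fq : (L ≃ₐ[F] L) → X → E := fun q x => s q (f (act (s q)⁻¹ x))
  let T : Fin n → X → E := fun i => ∑ q : L ≃ₐ[F] L, ((q (lam i) : L) : E) • fq q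
  -- `T i` is equivariant
  have hT : ∀ i, IsEquivariant act (T i) := by
    intro i ρ x
    let r : L ≃ₐ[F] L := ρ.restrictNormal L
    have hr : ∀ l : L, ((r l : L) : E) = ρ (l : E) := fun l => ρ.restrictNormal_commutes L l
    simp only [T, Finset.sum_apply, Pi.smul_apply, smul_eq_mul, map_sum, map_mul]
    refine (Fintype.sum_equiv (Equiv.mulLeft r) _ _ fun q' => ?_).symm
    simp only [Equiv.coe_mulLeft, fq]
    symm
    -- the point
    have hpt : act (s (r * q'))⁻¹ (act ρ x) = act (s q')⁻¹ x := by
      rw [← hmul]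
      refine act_eq_of_agree act hmul L hL _ _ (fun e he => ?_) x
      obtain ⟨l, rfl⟩ : ∃ l : L, (l : E) = e := ⟨⟨e, he⟩, rfl⟩
      show (s (r * q'))⁻¹ (ρ (l : E)) = (s q')⁻¹ (l : E)
      rw [← hr l, hsinv, hsinv]
      congr 1
      apply (r * q').injective
      rw [AlgEquiv.apply_symm_apply]
      show r l = r (q' (q'.symm l))
      rw [AlgEquiv.apply_symm_apply]
    rw [hpt]
    -- the values
    set l' : L := ⟨f (act (s q')⁻¹ x), hfL _⟩ with hl'
    have hval : f (act (s q')⁻¹ x) = (l' : E) := rfl
    rw [hval, hs, hs]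
    have h2 : (((r * q') l' : L) : E) = ρ ((q' l' : L) : E) := by
      rw [← hr]; rfl
    have h3 : (((r * q') (lam i) : L) : E) = ρ ((q' (lam i) : L) : E) := by
      rw [← hr]; rfl
    rw [h2, h3]
  -- `f = ∑ μ_i T_i`
  have hf : f = ∑ i, ((mu i : L) : E) • T i := by
    have h1 : ∑ i, ((mu i : L) : E) • T i =
        ∑ q : L ≃ₐ[F] L, (∑ i, ((mu i : L) : E) * ((q (lam i) : L) : E)) • fq q := by
      simp only [T, Finset.smul_sum, smul_smul, Finset.sum_smul]
      exact Finset.sum_comm
    have h2 : ∀ q : L ≃ₐ[F] L, (∑ i, ((mu i : L) : E) * ((q (lam i) : L) : E)) =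
        if q = 1 then 1 else 0 := by
      intro q
      by_cases hq : q = 1
      · subst hq
        have := congrArg (fun l : L => (l : E)) hdual1
        simp only [AddSubmonoidClass.coe_finsetSum, MulMemClass.coe_mul] at this
        simpa using this
      · have := congrArg (fun l : L => (l : E)) (hdual q hq)
        simp only [AddSubmonoidClass.coe_finsetSum, MulMemClass.coe_mul] at this
        rw [if_neg hq]
        simpa using this
    rw [h1]
    simp only [h2, ite_smul, one_smul, zero_smul, Finset.sum_ite_eq', Finset.mem_univ, if_true]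
    -- `fq 1 = f`
    funext x
    show f x = s 1 (f (act (s 1)⁻¹ x))
    have hfix : ∀ e ∈ L, s 1 e = e := fun e he => hs 1 ⟨e, he⟩
    have hfix' : ∀ e ∈ L, (s 1)⁻¹ e = e := fun e he => hsinv 1 ⟨e, he⟩
    rw [hL _ hfix' x, hfix _ (hfL x)]
  rw [hf]
  exact Submodule.sum_mem _ fun i _ =>
    Submodule.smul_mem _ _ (Submodule.subset_span (hT i))

include hmul hL in
/-- **The equivariant functions span `X → E`.** -/
theorem span_equivariant_eq_top [Finite X] :
    Submodule.span E {a : X → E | IsEquivariant act a} = ⊤ := by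
  classical
  have := Fintype.ofFinite X
  rw [eq_top_iff]
  rintro f -
  have hf : f = ∑ x, f x • (Pi.single x 1 : X → E) := by
    funext y
    simp [Finset.sum_apply, Pi.single_apply]
  rw [hf]
  refine Submodule.sum_mem _ fun x _ => Submodule.smul_mem _ _ ?_
  refine mem_span_of_forall_mem act hmul L hL _ fun y => ?_
  by_cases h : y = x
  · subst h; simp [L.one_mem]
  · rw [Pi.single_eq_of_ne h]; exact L.zero_mem

include hmul hL in
/-- **An `E`-basis of `X → E` made of equivariant functions.** -/
theorem exists_equivariant_basis [Finite X] :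
    ∃ (K : Type) (_ : Fintype K) (w : K → X → E), (∀ k, IsEquivariant act (w k)) ∧
      LinearIndependent E w ∧ Submodule.span E (Set.range w) = ⊤ := by
  classical
  have := Fintype.ofFinite X
  obtain ⟨b, hbS, hspan, hli⟩ := exists_linearIndependent E {a : X → E | IsEquivariant act a}
  have hfin : Finite b := hli.finite
  have := Fintype.ofFinite b
  refine ⟨b, inferInstance, fun k => (k : X → E), fun k => hbS k.2, hli, ?_⟩
  rw [Subtype.range_coe, hspan]
  exact span_equivariant_eq_top act hmul L hL

end Span

end Fermat.Agent.T1.Glue44.Descent
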