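/-
Programme T1a (S19), layer (A) ALG, brick A3 = GLUE (helper44).

`Padic`: the elementary `ℓ`-adic facts used by GLUE.

* `norm_ratCast_le_one_iff` : `‖(q : ℚ_ℓ)‖ ≤ 1 ↔ q ∈ ℤ_(ℓ)`;
* `toZl : ℤ_(ℓ) →+* ℤ_ℓ`;
* an embedding `ι : ℚ̄ →+* K̄` is the canonical map on `ℚ` (`map_rat`, `map_algebraMap_Zp`);
* `mem_Zp_of_map_eq` : a rational whose image in `K̄` comes from `ℤ_ℓ` lies in `ℤ_(ℓ)`;
* `exists_rat_approx`, `exists_pow_mul_norm_le_one`, `exists_padicInt_of_norm_le_pow`.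
-/
import Mathlib
import Fermat.Agent.T1.AlgIface47
import Fermat.Agent.Flat44.Base

set_option autoImplicit false

noncomputable section

namespace Fermat.Agent.T1.Glue44.Padic

open Fermat.Agent.TW.B5.Iface Fermat.Agent.Flat44

variable (ℓ : ℕ) [Fact ℓ.Prime]

/-- `‖(q : ℚ_ℓ)‖ ≤ 1` iff the denominator of `q` is prime to `ℓ`. -/
theorem norm_ratCast_le_one_iff (q : ℚ) : ‖(q : ℚ_[ℓ])‖ ≤ 1 ↔ q.den.Coprime ℓ := by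
  have hℓ : ℓ.Prime := Fact.out
  constructor
  · intro h
    by_contra hcop
    have hdvd : ℓ ∣ q.den := by
      rw [Nat.coprime_comm, hℓ.coprime_iff_not_dvd] at hcop
      exact not_not.mp hcop
    have hden : ‖((q.den : ℕ) : ℚ_[ℓ])‖ < 1 := Padic.norm_natCast_lt_one_iff.mpr hdvd
    have hnum : ‖((q.num : ℤ) : ℚ_[ℓ])‖ = 1 := by
      rw [Padic.norm_intCast_eq_one_iff]
      have hc : Nat.Coprime q.num.natAbs q.den := q.reduced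
      have : ¬ ℓ ∣ q.num.natAbs := fun h2 =>
        hℓ.one_lt.ne' (Nat.eq_one_of_dvd_coprimes hc h2 hdvd)
      rw [Int.isCoprime_iff_gcd_eq_one, Int.gcd_comm]
      have h3 : Nat.Coprime ℓ q.num.natAbs := (hℓ.coprime_iff_not_dvd).mpr this
      simpa [Int.gcd, Nat.Coprime] using h3
    have hq : (q : ℚ_[ℓ]) * ((q.den : ℕ) : ℚ_[ℓ]) = ((q.num : ℤ) : ℚ_[ℓ]) := by
      have : (q : ℚ) * (q.den : ℚ) = (q.num : ℚ) := Rat.mul_den_eq_num q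
      exact_mod_cast congrArg (fun x : ℚ => (x : ℚ_[ℓ])) this
    have := congrArg norm hq
    rw [norm_mul, hnum] at this
    have h0 : 0 ≤ ‖(q : ℚ_[ℓ])‖ := norm_nonneg _
    have h1 : 0 ≤ ‖((q.den : ℕ) : ℚ_[ℓ])‖ := norm_nonneg _
    nlinarith
  · intro h
    refine Padic.norm_rat_le_one fun hdvd => ?_
    have : ℓ ∣ Nat.gcd q.den ℓ := Nat.dvd_gcd hdvd dvd_rfl
    rw [h] at this
    exact hℓ.one_lt.ne' (Nat.dvd_one.mp this)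

/-- `ℤ_(ℓ) → ℤ_ℓ`. -/
def toZl : Zp ℓ →+* ℤ_[ℓ] where
  toFun r := ⟨((r : ℚ) : ℚ_[ℓ]), (norm_ratCast_le_one_iff ℓ _).mpr r.2⟩
  map_one' := by apply Subtype.ext; simp
  map_mul' a b := by
    apply Subtype.ext
    show (((a * b : Zp ℓ) : ℚ) : ℚ_[ℓ]) = ((a : ℚ) : ℚ_[ℓ]) * ((b : ℚ) : ℚ_[ℓ])
    push_cast; rfl
  map_zero' := by apply Subtype.ext; simp
  map_add' a b := by
    apply Subtype.ext
    show (((a + b : Zp ℓ) : ℚ) : ℚ_[ℓ]) = ((a : ℚ) : ℚ_[ℓ]) + ((b : ℚ) : ℚ_[ℓ])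
    push_cast; rfl

@[simp] theorem coe_toZl (r : Zp ℓ) : ((toZl ℓ r : ℤ_[ℓ]) : ℚ_[ℓ]) = ((r : ℚ) : ℚ_[ℓ]) := rfl

/-- A rational number which is an `ℓ`-adic integer lies in `ℤ_(ℓ)`. -/
theorem mem_Zp_of_eq_padicInt (q : ℚ) (z : ℤ_[ℓ]) (h : (q : ℚ_[ℓ]) = (z : ℚ_[ℓ])) : q ∈ Zp ℓ := by
  show q.den.Coprime ℓ
  rw [← norm_ratCast_le_one_iff, h]
  exact z.2

variable {ℓ}

/-- A field embedding `ℚ̄ → K̄` is the canonical map on `ℚ`. -/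
theorem map_rat (ι : Qb →+* Kbar ℓ) (q : ℚ) :
    ι (algebraMap ℚ Qb q) = algebraMap ℚ_[ℓ] (Kbar ℓ) (q : ℚ_[ℓ]) := by
  rw [eq_ratCast, map_ratCast, map_ratCast]

theorem map_algebraMap_Zp (ι : Qb →+* Kbar ℓ) (r : Zp ℓ) :
    ι (algebraMap (Zp ℓ) Qb r) = algebraMap ℤ_[ℓ] (Kbar ℓ) (toZl ℓ r) := by
  rw [IsScalarTower.algebraMap_apply (Zp ℓ) ℚ Qb, IsScalarTower.algebraMap_apply ℤ_[ℓ] ℚ_[ℓ] (Kbar ℓ)]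
  exact map_rat ι _

/-- A rational number whose image in `K̄` comes from `ℤ_ℓ` lies in `ℤ_(ℓ)`. -/
theorem exists_Zp_of_map_eq (ι : Qb →+* Kbar ℓ) (q : ℚ) (z : ℤ_[ℓ])
    (h : ι (algebraMap ℚ Qb q) = algebraMap ℤ_[ℓ] (Kbar ℓ) z) :
    ∃ r : Zp ℓ, algebraMap (Zp ℓ) Qb r = algebraMap ℚ Qb q := by
  rw [map_rat, IsScalarTower.algebraMap_apply ℤ_[ℓ] ℚ_[ℓ] (Kbar ℓ)] at h
  have h' : (q : ℚ_[ℓ]) = (z : ℚ_[ℓ]) := (algebraMap ℚ_[ℓ] (Kbar ℓ)).injective h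
  exact ⟨⟨q, mem_Zp_of_eq_padicInt ℓ q z h'⟩, by
    rw [IsScalarTower.algebraMap_apply (Zp ℓ) ℚ Qb]; rfl⟩

variable (ℓ)

/-- Rational approximation in `ℚ_ℓ`. -/
theorem exists_rat_approx (c : ℚ_[ℓ]) (n : ℕ) :
    ∃ q : ℚ, ‖c - (q : ℚ_[ℓ])‖ ≤ ‖(ℓ : ℚ_[ℓ])‖ ^ n := by
  have hpos : 0 < ‖(ℓ : ℚ_[ℓ])‖ ^ n := by
    apply pow_pos
    rw [Padic.norm_p]
    exact inv_pos.mpr (by exact_mod_cast (Fact.out : ℓ.Prime).pos)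
  obtain ⟨r, hr⟩ := Padic.rat_dense ℓ c hpos
  exact ⟨r, hr.le⟩

/-- A common denominator `ℓ^a` for finitely many elements of `ℚ_ℓ`. -/
theorem exists_pow_mul_norm_le_one {I : Type} (s : Finset I) (c : I → ℚ_[ℓ]) :
    ∃ a : ℕ, ∀ i ∈ s, ‖(ℓ : ℚ_[ℓ]) ^ a * c i‖ ≤ 1 := by
  classical
  have hℓ : ℓ.Prime := Fact.out
  have hlt : ‖(ℓ : ℚ_[ℓ])‖ < 1 := by
    rw [Padic.norm_p]
    exact inv_lt_one_of_one_lt₀ (by exact_mod_cast hℓ.one_lt)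
  have hnn : 0 ≤ ‖(ℓ : ℚ_[ℓ])‖ := norm_nonneg _
  have one : ∀ x : ℚ_[ℓ], ∃ a : ℕ, ∀ b ≥ a, ‖(ℓ : ℚ_[ℓ]) ^ b * x‖ ≤ 1 := by
    intro x
    by_cases hx : x = 0
    · exact ⟨0, fun b _ => by simp [hx]⟩
    have hxpos : 0 < ‖x‖ := norm_pos_iff.mpr hx
    obtain ⟨a, ha⟩ := exists_pow_lt_of_lt_one (inv_pos.mpr hxpos) hlt
    refine ⟨a, fun b hb => ?_⟩
    rw [norm_mul, norm_pow]
    have h1 : ‖(ℓ : ℚ_[ℓ])‖ ^ b ≤ ‖(ℓ : ℚ_[ℓ])‖ ^ a := pow_le_pow_of_le_one hnn hlt.le hb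
    have h2 : ‖(ℓ : ℚ_[ℓ])‖ ^ b * ‖x‖ ≤ ‖x‖⁻¹ * ‖x‖ :=
      mul_le_mul_of_nonneg_right (h1.trans ha.le) hxpos.le
    rwa [inv_mul_cancel₀ hxpos.ne'] at h2
  induction s using Finset.induction_on with
  | empty => exact ⟨0, by simp⟩
  | insert i t hit ih =>
    obtain ⟨a, ha⟩ := ih
    obtain ⟨a', ha'⟩ := one (c i)
    refine ⟨a + a', fun j hj => ?_⟩
    rcases Finset.mem_insert.mp hj with rfl | hj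
    · exact ha' _ (Nat.le_add_left _ _)
    · rw [pow_add, mul_comm ((ℓ : ℚ_[ℓ]) ^ a), mul_assoc, norm_mul]
      have h1 : ‖(ℓ : ℚ_[ℓ]) ^ a'‖ ≤ 1 := by
        rw [norm_pow]; exact pow_le_one₀ hnn hlt.le
      exact mul_le_one₀ h1 (norm_nonneg _) (ha j hj)

/-- `‖c‖ ≤ ‖ℓ‖^n ⇒ c ∈ ℓ^n ℤ_ℓ`. -/
theorem exists_padicInt_of_norm_le_pow (c : ℚ_[ℓ]) (n : ℕ) (h : ‖c‖ ≤ ‖(ℓ : ℚ_[ℓ])‖ ^ n) :
    ∃ z : ℤ_[ℓ], c = (ℓ : ℚ_[ℓ]) ^ n * (z : ℚ_[ℓ]) := by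
  have hℓ : ℓ.Prime := Fact.out
  have hne : (ℓ : ℚ_[ℓ]) ^ n ≠ 0 := pow_ne_zero _ (by exact_mod_cast hℓ.ne_zero)
  have hpos : 0 < ‖(ℓ : ℚ_[ℓ]) ^ n‖ := norm_pos_iff.mpr hne
  refine ⟨⟨c / (ℓ : ℚ_[ℓ]) ^ n, ?_⟩, ?_⟩
  · rw [norm_div, div_le_one hpos, norm_pow]; exact h
  · show c = (ℓ : ℚ_[ℓ]) ^ n * (c / (ℓ : ℚ_[ℓ]) ^ n)
    field_simp

end Fermat.Agent.T1.Glue44.Padic
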