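/-
Programme T1a (S19), layer (A) ALG, brick A3 = GLUE (helper44).

`Defs`: the setting of GLUE bundled in a structure, and the candidate global order

  `B = { b : M → ℚ̄ | b is G_ℚ-equivariant and ι ∘ b ∈ 𝔅 }`,   `𝔅` the local order,

as a `ℤ_(ℓ)`-subalgebra of `M → ℚ̄`.
-/
import Mathlib
import Fermat.Agent.T1.AlgIface47
import Fermat.Agent.T1.Glue44.Descent
import Fermat.Agent.T1.Glue44.Padic

set_option autoImplicit false

noncomputable section

namespace Fermat.Agent.T1.Glue44

open Fermat.Agent.TW.B5.Iface Fermat.Agent.Flat44 Fermat.Agent.T1.AlgIface47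

/-- The data of GLUE. -/
structure Setting (ℓ : ℕ) [Fact ℓ.Prime] (M : Type) [AddCommGroup M] where
  /-- the embedding `ℚ̄ → K̄` -/
  ι : Qb →+* Kbar ℓ
  /-- restriction `G_ℓ → G_ℚ` -/
  res : Gp ℓ → GQ
  hres : ∀ σ x, ι (res σ x) = σ (ι x)
  /-- the action -/
  act : GQ → M → M
  act_one : ∀ x, act 1 x = x
  act_mul : ∀ σ τ x, act (σ * τ) x = act σ (act τ x)
  act_add : ∀ σ x y, act σ (x + y) = act σ x + act σ y
  /-- the local order -/
  F : LocalFunOrder ℓ M (fun σ => act (res σ))

namespace Setting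

variable {ℓ : ℕ} [Fact ℓ.Prime] {M : Type} [AddCommGroup M] (S : Setting ℓ M)

/-- The local action. -/
def actL : Gp ℓ → M → M := fun σ => S.act (S.res σ)

theorem actL_def (σ : Gp ℓ) (x : M) : S.actL σ x = S.act (S.res σ) x := rfl

theorem res_one : S.res 1 = 1 := by
  ext x
  apply S.ι.injective
  rw [S.hres]
  rfl

theorem res_mul (σ τ : Gp ℓ) : S.res (σ * τ) = S.res σ * S.res τ := by
  ext x
  apply S.ι.injective
  rw [S.hres]
  show σ (τ (S.ι x)) = S.ι (S.res σ (S.res τ x))
  rw [S.hres, S.hres]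

theorem actL_one (x : M) : S.actL 1 x = x := by
  rw [actL_def, res_one, S.act_one]

theorem actL_mul (σ τ : Gp ℓ) (x : M) : S.actL (σ * τ) x = S.actL σ (S.actL τ x) := by
  simp only [actL_def, res_mul, S.act_mul]

theorem act_surjective (σ : GQ) : Function.Surjective (S.act σ) := fun x =>
  ⟨S.act σ⁻¹ x, by rw [← S.act_mul, mul_inv_cancel, S.act_one]⟩

theorem actL_surjective (σ : Gp ℓ) : Function.Surjective (S.actL σ) := fun x =>
  ⟨S.actL σ⁻¹ x, by rw [← S.actL_mul, mul_inv_cancel, S.actL_one]⟩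

theorem act_zero (σ : GQ) : S.act σ 0 = 0 := by
  have h := S.act_add σ 0 0
  rw [add_zero] at h
  exact left_eq_add.mp h

theorem act_neg (σ : GQ) (x : M) : S.act σ (-x) = -S.act σ x := by
  have h := S.act_add σ x (-x)
  rw [add_neg_cancel, S.act_zero] at h
  exact eq_neg_of_add_eq_zero_right h.symm

/-- Push a `ℚ̄`-valued function to a `K̄`-valued function. -/
def push (X : Type) : (X → Qb) →+* (X → Kbar ℓ) := S.ι.compLeft X

@[simp] theorem push_apply {X : Type} (b : X → Qb) (x : X) : S.push X b x = S.ι (b x) := rfl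

theorem push_injective (X : Type) : Function.Injective (S.push X) := fun a b h => by
  funext x
  exact S.ι.injective (congrFun h x)

theorem push_smul {X : Type} (c : Qb) (b : X → Qb) : S.push X (c • b) = S.ι c • S.push X b := by
  funext x
  simp

/-- Equivariant functions push to locally equivariant functions. -/
theorem push_equivariant {b : M → Qb} (hb : Descent.IsEquivariant S.act b) :
    Descent.IsEquivariant S.actL (S.push M b) := fun σ x => by
  rw [push_apply, push_apply, actL_def, hb, S.hres]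

/-- The elements of the local order are locally equivariant. -/
theorem equivariant_of_mem {β : M → Kbar ℓ} (hβ : β ∈ S.F.B) : Descent.IsEquivariant S.actL β :=
  fun σ x => S.F.equivariant β hβ σ x

/-- **The candidate global order.** -/
def B : Subalgebra (Zp ℓ) (M → Qb) where
  carrier := {b | Descent.IsEquivariant S.act b ∧ S.push M b ∈ S.F.B}
  mul_mem' {a b} ha hb := ⟨ha.1.mul hb.1, by rw [map_mul]; exact S.F.B.mul_mem ha.2 hb.2⟩
  add_mem' {a b} ha hb := ⟨ha.1.add hb.1, by rw [map_add]; exact S.F.B.add_mem ha.2 hb.2⟩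
  algebraMap_mem' r := by
    refine ⟨fun σ x => ?_, ?_⟩
    · show algebraMap (Zp ℓ) Qb r = σ (algebraMap (Zp ℓ) Qb r)
      rw [IsScalarTower.algebraMap_apply (Zp ℓ) ℚ Qb, AlgEquiv.commutes]
    · have : S.push M (algebraMap (Zp ℓ) (M → Qb) r) =
          algebraMap ℤ_[ℓ] (M → Kbar ℓ) (Padic.toZl ℓ r) := by
        funext x
        show S.ι (algebraMap (Zp ℓ) Qb r) = algebraMap ℤ_[ℓ] (Kbar ℓ) (Padic.toZl ℓ r)
        exact Padic.map_algebraMap_Zp S.ι r
      rw [this]
      exact S.F.B.algebraMap_mem _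

theorem mem_B_iff {b : M → Qb} :
    b ∈ S.B ↔ Descent.IsEquivariant S.act b ∧ S.push M b ∈ S.F.B := Iff.rfl

theorem push_zp_smul {X : Type} (r : Zp ℓ) (b : X → Qb) :
    S.push X (r • b) = Padic.toZl ℓ r • S.push X b := by
  funext x
  show S.ι (r • b x) = Padic.toZl ℓ r • S.ι (b x)
  rw [Algebra.smul_def, map_mul, Padic.map_algebraMap_Zp, Algebra.smul_def]

end Setting

end Fermat.Agent.T1.Glue44
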