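/-
Programme T1a (S19), layer (A) ALG, brick A3 = GLUE (helper44).

`LinAlg`: generic linear algebra of function spaces `X → K` on a finite set (Mathlib only).

* `linearIndependent_comp_ringHom` : a field homomorphism `f : E → K` maps `E`-linearly independent
  families of functions `X → E` to `K`-linearly independent families of functions `X → K`;
* `span_comp_ringHom_eq_top` : and spanning families to spanning families;
* `span_eq_top_of_separates` : a subalgebra of `X → K` (over any base ring) which separates the
  points of `X` spans `X → K` over `K` (Lagrange interpolation).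
-/
import Mathlib

set_option autoImplicit false

noncomputable section

namespace Fermat.Agent.T1.Glue44.LinAlg

/-- A field homomorphism preserves the linear independence of families of functions on a finite
set. -/
theorem linearIndependent_comp_ringHom {E K : Type} [Field E] [Field K] (f : E →+* K) {X J : Type}
    [Finite X] (v : J → X → E) (hv : LinearIndependent E v) :
    LinearIndependent K (fun j => (fun x => f (v j x))) := by
  classical
  have := Fintype.ofFinite X
  -- a left inverse of the linear combination map
  obtain ⟨g, hg⟩ := LinearMap.exists_leftInverse_of_injective (Finsupp.linearCombination E v)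
    (by rw [← linearIndependent_iff_ker]; exact hv)
  -- the coefficients of the dual functionals
  let a : J → X → E := fun j x => g (Pi.single x 1) j
  have hφ : ∀ (j : J) (h : X → E), g h j = ∑ x, h x * a j x := by
    intro j h
    have hh : h = ∑ x, h x • (Pi.single x 1 : X → E) := by
      funext y
      simp [Finset.sum_apply, Pi.single_apply]
    conv_lhs => rw [hh]
    rw [map_sum, Finsupp.finsetSum_apply]
    refine Finset.sum_congr rfl fun x _ => ?_
    rw [map_smul, Finsupp.smul_apply, smul_eq_mul]
  have hdual : ∀ i j : J, ∑ x, v i x * a j x = if i = j then 1 else 0 := by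
    intro i j
    rw [← hφ j (v i)]
    have h1 : g (v i) = Finsupp.single i 1 := by
      have := LinearMap.congr_fun hg (Finsupp.single i 1)
      simpa using this
    rw [h1, Finsupp.single_apply]
  rw [linearIndependent_iff']
  intro s c hc j hj
  have h0 : ∑ x, (∑ i ∈ s, c i • (fun x => f (v i x))) x * f (a j x) = 0 := by
    rw [hc]; simp
  have h1 : ∑ x, (∑ i ∈ s, c i • (fun x => f (v i x))) x * f (a j x) =
      ∑ i ∈ s, c i * f (∑ x, v i x * a j x) := by
    simp only [Finset.sum_apply, Pi.smul_apply, smul_eq_mul, Finset.sum_mul, map_sum, map_mul,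
      Finset.mul_sum]
    rw [Finset.sum_comm]
    refine Finset.sum_congr rfl fun i _ => Finset.sum_congr rfl fun x _ => ?_
    ring
  rw [h1] at h0
  simp only [hdual] at h0
  have h2 : ∑ i ∈ s, c i * f (if i = j then 1 else 0) = c j := by
    rw [Finset.sum_eq_single j]
    · simp
    · intro i _ hij
      simp [hij]
    · intro h; exact absurd hj h
  rw [h2] at h0
  exact h0

/-- A field homomorphism preserves spanning families of functions on a finite set. -/
theorem span_comp_ringHom_eq_top {E K : Type} [Field E] [Field K] (f : E →+* K) {X J : Type}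
    [Finite X] [Fintype J] (v : J → X → E) (hv : Submodule.span E (Set.range v) = ⊤) :
    Submodule.span K (Set.range (fun j => (fun x => f (v j x)))) = ⊤ := by
  classical
  have := Fintype.ofFinite X
  rw [eq_top_iff]
  rintro h -
  have hh : h = ∑ x, h x • (Pi.single x 1 : X → K) := by
    funext y
    simp [Finset.sum_apply, Pi.single_apply]
  rw [hh]
  refine Submodule.sum_mem _ fun x _ => Submodule.smul_mem _ _ ?_
  have hx : (Pi.single x 1 : X → E) ∈ Submodule.span E (Set.range v) := by rw [hv]; trivial
  obtain ⟨a, ha⟩ := (Submodule.mem_span_range_iff_exists_fun E).mp hx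
  have : (Pi.single x 1 : X → K) = ∑ j, f (a j) • (fun x => f (v j x)) := by
    funext y
    have := congrFun ha y
    simp only [Finset.sum_apply, Pi.smul_apply, smul_eq_mul] at this ⊢
    simp only [← map_mul, ← map_sum, this]
    by_cases hy : y = x
    · subst hy; simp
    · simp [Pi.single_eq_of_ne hy]
  rw [this]
  exact Submodule.sum_mem _ fun j _ => Submodule.smul_mem _ _ (Submodule.subset_span ⟨j, rfl⟩)

/-- **Lagrange interpolation.** A subalgebra of `X → K` separating the points of the finite set
`X` spans `X → K` over `K`. -/
theorem span_eq_top_of_separates {R K : Type} [CommRing R] [Field K] [Algebra R K] {X : Type}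
    [Finite X] (B : Subalgebra R (X → K)) (hsep : ∀ x y : X, (∀ b ∈ B, b x = b y) → x = y) :
    Submodule.span K (B : Set (X → K)) = ⊤ := by
  classical
  have := Fintype.ofFinite X
  -- the span is the underlying module of the `K`-subalgebra generated by `B`
  let A : Subalgebra K (X → K) := Algebra.adjoin K (B : Set (X → K))
  have hA : Subalgebra.toSubmodule A = Submodule.span K (B : Set (X → K)) := by
    rw [Algebra.adjoin_eq_span]
    congr 1
    exact congrArg (fun t : Submonoid (X → K) => (t : Set (X → K)))
      (Submonoid.closure_eq B.toSubmonoid)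
  have hBA : ∀ b ∈ B, b ∈ A := fun b hb => Algebra.subset_adjoin hb
  rw [← hA, eq_top_iff]
  rintro h -
  show h ∈ A
  have hh : h = ∑ x, h x • (Pi.single x 1 : X → K) := by
    funext y
    simp [Finset.sum_apply, Pi.single_apply]
  rw [hh]
  refine Subalgebra.sum_mem _ fun x _ => Subalgebra.smul_mem _ ?_ _
  -- the indicator of `x`
  have hex : ∀ y : X, ∃ b ∈ B, y ≠ x → b x ≠ b y := by
    intro y
    by_cases hy : y = x
    · exact ⟨1, B.one_mem, fun h => absurd hy h⟩
    · by_contra hcon
      refine hy (hsep x y fun b hb => ?_).symm
      by_contra hne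
      exact hcon ⟨b, hb, fun _ => hne⟩
  choose b hbB hb using hex
  let g : X → X → K := fun y =>
    (b y - algebraMap K (X → K) (b y y)) * algebraMap K (X → K) ((b y x - b y y)⁻¹)
  have hgA : ∀ y, g y ∈ A := fun y =>
    A.mul_mem (A.sub_mem (hBA _ (hbB y)) (A.algebraMap_mem _)) (A.algebraMap_mem _)
  have hgx : ∀ y, y ≠ x → g y x = 1 := by
    intro y hy
    show (b y x - b y y) * (b y x - b y y)⁻¹ = 1
    exact mul_inv_cancel₀ (sub_ne_zero.mpr (hb y hy))
  have hgy : ∀ y, g y y = 0 := by
    intro y
    show (b y y - b y y) * (b y x - b y y)⁻¹ = 0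
    rw [sub_self, zero_mul]
  have hP : (Pi.single x 1 : X → K) = ∏ y ∈ Finset.univ.erase x, g y := by
    funext z
    rw [Finset.prod_apply]
    by_cases hz : z = x
    · subst hz
      rw [Pi.single_eq_same]
      symm
      exact Finset.prod_eq_one fun y hy => hgx y (Finset.ne_of_mem_erase hy)
    · rw [Pi.single_eq_of_ne hz]
      symm
      exact Finset.prod_eq_zero (Finset.mem_erase.mpr ⟨hz, Finset.mem_univ z⟩) (hgy z)
  rw [hP]
  exact Subalgebra.prod_mem _ fun y _ => hgA y

end Fermat.Agent.T1.Glue44.LinAlg
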