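/-
Programme T1a (S19), layer (A) ALG, brick A3 = GLUE (helper44).

`Assemble`: the assembly half of GLUE.  In the setting `S : Setting ℓ M` (see `Defs`), if the
candidate global order `S.B` is finitely generated over `ℤ_(ℓ)` and its push-forward spans the local
order `𝔅` over `ℤ_ℓ`, then `S.B` is a function order (`Flat44.FunOrder`).
-/
import Mathlib
import Fermat.Agent.T1.Glue44.Defs
import Fermat.Agent.T1.Glue44.LinAlg
import Fermat.Agent.Flat44.ToHopf

set_option autoImplicit false

noncomputable section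

namespace Fermat.Agent.T1.Glue44

open Fermat.Agent.TW.B5.Iface Fermat.Agent.Flat44 Fermat.Agent.T1.AlgIface47

variable {ℓ : ℕ} [Fact ℓ.Prime] {M : Type} [AddCommGroup M]

namespace Setting

variable (S : Setting ℓ M)

/-- The diagonal action on `M × M`. -/
def act2 (σ : GQ) (xy : M × M) : M × M := (S.act σ xy.1, S.act σ xy.2)

theorem act2_surjective (σ : GQ) : Function.Surjective (S.act2 σ) := fun xy => by
  obtain ⟨x, hx⟩ := S.act_surjective σ xy.1
  obtain ⟨y, hy⟩ := S.act_surjective σ xy.2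
  exact ⟨(x, y), Prod.ext hx hy⟩

/-- `b ↦ ((x, y) ↦ b (x + y))` preserves equivariance. -/
theorem comul_equivariant {b : M → Qb} (hb : Descent.IsEquivariant S.act b) :
    Descent.IsEquivariant S.act2 (fun xy : M × M => b (xy.1 + xy.2)) := fun σ xy => by
  show b (S.act σ xy.1 + S.act σ xy.2) = σ (b (xy.1 + xy.2))
  rw [← S.act_add, hb]

/-- `(a, b) ↦ ((x, y) ↦ a x * b y)` preserves equivariance. -/
theorem prod_equivariant {a b : M → Qb} (ha : Descent.IsEquivariant S.act a)
    (hb : Descent.IsEquivariant S.act b) :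
    Descent.IsEquivariant S.act2 (fun xy : M × M => a xy.1 * b xy.2) := fun σ xy => by
  show a (S.act σ xy.1) * b (S.act σ xy.2) = σ (a xy.1 * b xy.2)
  rw [ha, hb, map_mul]

end Setting

section Assemble

variable [Finite M] (S : Setting ℓ M)
  (hfg : (Subalgebra.toSubmodule S.B).FG)
  (hspan : Submodule.span ℤ_[ℓ] ((S.push M) '' (S.B : Set (M → Qb))) =
    Subalgebra.toSubmodule S.F.B)

omit [Finite M] in
include hspan in
/-- Separation of points. -/
theorem separates_of_span (x y : M) (h : ∀ b ∈ S.B, b x = b y) : x = y := by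
  refine S.F.separates x y fun β hβ => ?_
  have hβ' : β ∈ Subalgebra.toSubmodule S.F.B := hβ
  rw [← hspan] at hβ'
  let P : Submodule ℤ_[ℓ] (M → Kbar ℓ) :=
    { carrier := {f | f x = f y}
      add_mem' := fun {f g} hf hg => by
        show f x + g x = f y + g y
        rw [hf, hg]
      zero_mem' := rfl
      smul_mem' := fun z f hf => by
        show z • f x = z • f y
        rw [hf] }
  have hle : Submodule.span ℤ_[ℓ] ((S.push M) '' (S.B : Set (M → Qb))) ≤ P := by
    rw [Submodule.span_le]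
    rintro _ ⟨b, hb, rfl⟩
    show S.ι (b x) = S.ι (b y)
    rw [h b hb]
  exact hle hβ'

omit [Finite M] in
/-- `b 0 ∈ ℤ_(ℓ)`. -/
theorem zero_mem_of_mem (b : M → Qb) (hb : b ∈ S.B) :
    ∃ r : Zp ℓ, algebraMap (Zp ℓ) Qb r = b 0 := by
  have := isGalois_Qb
  have hfix : ∀ σ : GQ, σ (b 0) = b 0 := fun σ => by
    rw [← hb.1 σ 0, S.act_zero]
  obtain ⟨q, hq⟩ :=
    (InfiniteGalois.mem_range_algebraMap_iff_fixed (k := ℚ) (K := Qb) (b 0)).mpr hfix
  obtain ⟨z, hz⟩ := S.F.zero_mem _ hb.2
  rw [← hq]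
  refine Padic.exists_Zp_of_map_eq S.ι q z ?_
  rw [hz, hq]
  rfl

omit [Finite M] in
/-- Stability under `b ↦ b ∘ neg`. -/
theorem neg_mem_of_mem (b : M → Qb) (hb : b ∈ S.B) : (fun x => b (-x)) ∈ S.B := by
  refine ⟨fun σ x => ?_, ?_⟩
  · show b (-S.act σ x) = σ (b (-x))
    rw [← S.act_neg, hb.1]
  · exact S.F.neg_mem _ hb.2

include hfg hspan in
/-- Stability under the comultiplication. -/
theorem comul_mem_of_mem (b : M → Qb) (hb : b ∈ S.B) :
    ∃ (κ : Type) (_ : Fintype κ) (u v : κ → M → Qb),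
      (∀ i, u i ∈ S.B) ∧ (∀ i, v i ∈ S.B) ∧ ∀ x y, b (x + y) = ∑ i, u i x * v i y := by
  classical
  have := isGalois_Qb
  have := Fintype.ofFinite M
  -- a basis of `B`
  have : Module.Finite (Zp ℓ) S.B := (Module.Finite.iff_fg).mpr hfg
  have : Module.IsTorsionFree (Zp ℓ) S.B := inferInstance
  have : Module.Free (Zp ℓ) S.B := Module.free_of_finite_type_torsion_free'
  let I : Type := Module.Free.ChooseBasisIndex (Zp ℓ) S.B
  let bas : Module.Basis I (Zp ℓ) S.B := Module.Free.chooseBasis (Zp ℓ) S.B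
  let bj : I → M → Qb := fun i => ((bas i : S.B) : M → Qb)
  let pb : I → M → Kbar ℓ := fun i => S.push M (bj i)
  have hbjB : ∀ i, bj i ∈ S.B := fun i => (bas i).2
  -- (a) independence over `ℚ̄`
  have hliQ : LinearIndependent Qb bj := by
    refine linearIndependent_Qb_of_Zp S.act ℓ _ (fun i σ x => (hbjB i).1 σ x)
      S.act_surjective ?_
    exact bas.linearIndependent.map' (Subalgebra.toSubmodule S.B).subtype
      (Submodule.ker_subtype _)
  -- (b) the push-forward spans the local order over `ℤ_ℓ`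
  have hspanL : ∀ β ∈ S.F.B, ∃ z : I → ℤ_[ℓ], β = ∑ i, z i • pb i := by
    intro β hβ
    have hβ' : β ∈ Subalgebra.toSubmodule S.F.B := hβ
    rw [← hspan] at hβ'
    have hle : Submodule.span ℤ_[ℓ] ((S.push M) '' (S.B : Set (M → Qb))) ≤
        Submodule.span ℤ_[ℓ] (Set.range pb) := by
      rw [Submodule.span_le]
      rintro _ ⟨b', hb', rfl⟩
      have h1 : b' = ∑ i, bas.repr ⟨b', hb'⟩ i • bj i := by
        have := congrArg (fun t : S.B => (t : M → Qb)) (bas.sum_repr ⟨b', hb'⟩)
        simp only [AddSubmonoidClass.coe_finsetSum, SetLike.val_smul] at this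
        exact this.symm
      rw [h1, map_sum]
      refine Submodule.sum_mem _ fun i _ => ?_
      rw [S.push_zp_smul]
      exact Submodule.smul_mem _ _ (Submodule.subset_span ⟨i, rfl⟩)
    obtain ⟨z, hz⟩ := (Submodule.mem_span_range_iff_exists_fun ℤ_[ℓ]).mp (hle hβ')
    exact ⟨z, hz.symm⟩
  -- (c) the push-forward spans `M → K̄` over `K̄`
  have hspanK : Submodule.span (Kbar ℓ) (Set.range pb) = ⊤ := by
    have hBspan : Submodule.span (Kbar ℓ) (S.F.B : Set (M → Kbar ℓ)) = ⊤ :=
      LinAlg.span_eq_top_of_separates S.F.B S.F.separates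
    rw [eq_top_iff, ← hBspan, Submodule.span_le]
    intro β hβ
    obtain ⟨z, rfl⟩ := hspanL β hβ
    refine Submodule.sum_mem _ fun i _ => ?_
    have : z i • pb i = algebraMap ℤ_[ℓ] (Kbar ℓ) (z i) • pb i := by
      funext x
      simp [Algebra.smul_def]
    rw [this]
    exact Submodule.smul_mem _ _ (Submodule.subset_span ⟨i, rfl⟩)
  -- (d) cardinalities
  have hcard : Fintype.card I = Fintype.card M := by
    apply le_antisymm
    · have := hliQ.fintype_card_le_finrank
      rwa [Module.finrank_fintype_fun_eq_card] at this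
    · have h1 := finrank_range_le_card (R := Kbar ℓ) pb
      rw [Set.finrank, hspanK, finrank_top, Module.finrank_fintype_fun_eq_card] at h1
      exact h1
  -- the products
  let bb : I × I → M × M → Qb := fun jk xy => bj jk.1 xy.1 * bj jk.2 xy.2
  have hbbli : LinearIndependent Qb bb := linearIndependent_prodFun bj bj hliQ hliQ
  have hbbspan : Submodule.span Qb (Set.range bb) = ⊤ := by
    refine hbbli.span_eq_top_of_card_eq_finrank' ?_
    rw [Module.finrank_fintype_fun_eq_card, Fintype.card_prod, Fintype.card_prod, hcard]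
  have hbbeq : ∀ jk, Descent.IsEquivariant S.act2 (bb jk) := fun jk =>
    S.prod_equivariant (hbjB jk.1).1 (hbjB jk.2).1
  -- (e) rational coordinates of `Δ b`
  obtain ⟨q, hq⟩ := Descent.exists_coeff_base bb hbbeq S.act2_surjective hbbli hbbspan _
    (S.comul_equivariant hb.1)
  -- (f) the local comultiplication
  obtain ⟨κ, hκ, u, v, hu, hv, huv⟩ := S.F.comul_mem _ hb.2
  have hzu := fun i => hspanL (u i) (hu i)
  have hzv := fun i => hspanL (v i) (hv i)
  choose zu hzu using hzu
  choose zv hzv using hzv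
  let Z : I × I → ℤ_[ℓ] := fun jk => ∑ i, zu i jk.1 * zv i jk.2
  let pbb : I × I → M × M → Kbar ℓ := fun jk xy => S.ι (bb jk xy)
  have hpbbli : LinearIndependent (Kbar ℓ) pbb :=
    LinAlg.linearIndependent_comp_ringHom S.ι bb hbbli
  have hpbb : ∀ jk xy, pbb jk xy = pb jk.1 xy.1 * pb jk.2 xy.2 := fun jk xy => by
    show S.ι (bj jk.1 xy.1 * bj jk.2 xy.2) = _
    rw [map_mul]
    rfl
  have hE1 : (fun xy : M × M => S.push M b (xy.1 + xy.2)) =
      ∑ jk, algebraMap ℤ_[ℓ] (Kbar ℓ) (Z jk) • pbb jk := by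
    funext xy
    obtain ⟨x, y⟩ := xy
    simp only [Finset.sum_apply, Pi.smul_apply, smul_eq_mul, hpbb]
    rw [huv x y, Fintype.sum_prod_type]
    simp only [Z, map_sum, map_mul, Finset.sum_mul]
    have hux : ∀ i, u i x = ∑ j, algebraMap ℤ_[ℓ] (Kbar ℓ) (zu i j) * pb j x := fun i => by
      conv_lhs => rw [hzu i]
      simp [Finset.sum_apply, Algebra.smul_def]
    have hvy : ∀ i, v i y = ∑ k, algebraMap ℤ_[ℓ] (Kbar ℓ) (zv i k) * pb k y := fun i => by
      conv_lhs => rw [hzv i]
      simp [Finset.sum_apply, Algebra.smul_def]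
    simp only [hux, hvy, Finset.sum_mul_sum]
    rw [Finset.sum_comm]
    refine Finset.sum_congr rfl fun j _ => ?_
    rw [Finset.sum_comm]
    refine Finset.sum_congr rfl fun k _ => ?_
    refine Finset.sum_congr rfl fun i _ => ?_
    ring
  have hE2 : (fun xy : M × M => S.push M b (xy.1 + xy.2)) =
      ∑ jk, S.ι (algebraMap ℚ Qb (q jk)) • pbb jk := by
    funext xy
    have := congrFun hq xy
    simp only [Finset.sum_apply, Pi.smul_apply, smul_eq_mul] at this ⊢
    show S.ι (b (xy.1 + xy.2)) = _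
    rw [this, map_sum]
    exact Finset.sum_congr rfl fun jk _ => by rw [map_mul]
  have hcoef : ∀ jk, S.ι (algebraMap ℚ Qb (q jk)) = algebraMap ℤ_[ℓ] (Kbar ℓ) (Z jk) := by
    intro jk
    have h0 : ∑ jk, (S.ι (algebraMap ℚ Qb (q jk)) - algebraMap ℤ_[ℓ] (Kbar ℓ) (Z jk)) • pbb jk
        = 0 := by
      simp only [sub_smul, Finset.sum_sub_distrib, ← hE1, ← hE2, sub_self]
    exact sub_eq_zero.mp (Fintype.linearIndependent_iff.mp hpbbli _ h0 jk)
  have hr := fun jk => Padic.exists_Zp_of_map_eq S.ι (q jk) (Z jk) (hcoef jk)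
  choose r hr using hr
  -- (g) conclusion
  refine ⟨I × I, inferInstance, fun jk => r jk • bj jk.1, fun jk => bj jk.2,
    fun jk => (Subalgebra.toSubmodule S.B).smul_mem _ (hbjB jk.1), fun jk => hbjB jk.2, ?_⟩
  intro x y
  have := congrFun hq (x, y)
  simp only [Finset.sum_apply, Pi.smul_apply, smul_eq_mul] at this
  rw [this]
  refine Finset.sum_congr rfl fun jk _ => ?_
  show algebraMap ℚ Qb (q jk) * (bj jk.1 x * bj jk.2 y) = (r jk • bj jk.1) x * bj jk.2 y
  rw [Pi.smul_apply, Algebra.smul_def, hr, mul_assoc]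

include hfg hspan in
/-- **Assembly.** -/
theorem funOrder_of_lattice : Nonempty (FunOrder ℓ M S.act) :=
  ⟨{ B := S.B
     fg := (Module.Finite.iff_fg).mpr hfg
     equivariant := fun _ hb σ x => hb.1 σ x
     separates := separates_of_span S hspan
     comul_mem := comul_mem_of_mem S hfg hspan
     neg_mem := neg_mem_of_mem S
     zero_mem := zero_mem_of_mem S }⟩

end Assemble

end Fermat.Agent.T1.Glue44
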