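/-
Programme T1a (S19), layer (A) ALG, brick A3 = GLUE (helper44).

`Lattice`: the lattice half of GLUE.  In the setting `S : Setting ℓ M` (see `Defs`), with open
stabilisers:

* `exists_eqBasis` : there is a `G_ℚ`-equivariant `ℚ̄`-basis `w` of `M → ℚ̄` (Galois descent);
* its push-forward `we = ι ∘ w` is a `K̄`-basis of `M → K̄` made of `G_ℓ`-equivariant functions, and
  the coordinates of a locally (globally) equivariant function lie in `ℚ_ℓ` (in `ℚ`);
* `exists_pow_smul_we_mem` : `ℓ^a • we k ∈ 𝔅`;   `exists_le_lat` : `𝔅 ⊆ ℓ^{-a} ⊕ ℤ_ℓ we k`;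
* `B_fg` : the candidate global order `S.B` is finitely generated over `ℤ_(ℓ)`;
* `span_push_B` : the `ℤ_ℓ`-span of `ι ∘ B` is the local order `𝔅` (approximation + Nakayama).
-/
import Mathlib
import Fermat.Agent.T1.Glue44.Defs
import Fermat.Agent.T1.Glue44.LinAlg

set_option autoImplicit false

noncomputable section

namespace Fermat.Agent.T1.Glue44

open Fermat.Agent.TW.B5.Iface Fermat.Agent.Flat44 Fermat.Agent.T1.AlgIface47

variable {ℓ : ℕ} [Fact ℓ.Prime] {M : Type} [AddCommGroup M]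

/-- A `G_ℚ`-equivariant `ℚ̄`-basis of `M → ℚ̄`. -/
structure EqBasis (S : Setting ℓ M) where
  /-- the cardinality -/
  n : ℕ
  /-- the basis -/
  w : Fin n → M → Qb
  hw : ∀ k, Descent.IsEquivariant S.act (w k)
  hli : LinearIndependent Qb w
  hspan : Submodule.span Qb (Set.range w) = ⊤

/-- **Galois descent**: with open stabilisers there is an equivariant basis. -/
theorem exists_eqBasis [Finite M] (S : Setting ℓ M)
    (hopen : ∀ x : M, ∃ L : IntermediateField ℚ Qb, FiniteDimensional ℚ L ∧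
      ∀ σ : GQ, (∀ e ∈ L, σ e = e) → S.act σ x = x) : Nonempty (EqBasis S) := by
  classical
  have := isGalois_Qb
  choose Lx hLfin hLx using hopen
  have : ∀ x, FiniteDimensional ℚ (Lx x) := hLfin
  let L₀ : IntermediateField ℚ Qb := ⨆ x, Lx x
  have : FiniteDimensional ℚ L₀ := IntermediateField.finiteDimensional_iSup_of_finite
  let L : IntermediateField ℚ Qb := IntermediateField.normalClosure ℚ L₀ Qb
  have : FiniteDimensional ℚ L := normalClosure.is_finiteDimensional ℚ L₀ Qb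
  have : Normal ℚ L := normalClosure.normal ℚ L₀ Qb
  have hL : ∀ σ : GQ, (∀ e ∈ L, σ e = e) → ∀ x, S.act σ x = x := by
    intro σ hσ x
    refine hLx x σ fun e he => hσ e ?_
    exact (IntermediateField.le_normalClosure L₀) ((le_iSup Lx x) he)
  obtain ⟨K, hK, w, hw, hli, hspan⟩ :=
    Descent.exists_equivariant_basis (F := ℚ) (E := Qb) S.act S.act_mul L hL
  let e : K ≃ Fin (Fintype.card K) := Fintype.equivFin K
  refine ⟨⟨Fintype.card K, fun k => w (e.symm k), fun k => hw _, ?_, ?_⟩⟩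
  · exact hli.comp _ e.symm.injective
  · rw [← hspan]
    congr 1
    exact (e.symm.surjective.range_comp w)

namespace EqBasis

variable {S : Setting ℓ M} (T : EqBasis S)

/-- The pushed-forward basis of `M → K̄`. -/
def we (k : Fin T.n) : M → Kbar ℓ := S.push M (T.w k)

theorem we_equivariant (k : Fin T.n) : Descent.IsEquivariant S.actL (T.we k) :=
  S.push_equivariant (T.hw k)

variable [Finite M]

theorem we_li : LinearIndependent (Kbar ℓ) T.we :=
  LinAlg.linearIndependent_comp_ringHom S.ι T.w T.hli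

theorem we_span : Submodule.span (Kbar ℓ) (Set.range T.we) = ⊤ :=
  LinAlg.span_comp_ringHom_eq_top S.ι T.w T.hspan

/-- Local coordinates lie in `ℚ_ℓ`. -/
theorem exists_coeffL (f : M → Kbar ℓ) (hf : Descent.IsEquivariant S.actL f) :
    ∃ c : Fin T.n → ℚ_[ℓ], f = ∑ k, algebraMap ℚ_[ℓ] (Kbar ℓ) (c k) • T.we k :=
  Descent.exists_coeff_base T.we T.we_equivariant S.actL_surjective T.we_li T.we_span f hf

omit [Finite M] in
/-- Global coordinates lie in `ℚ`. -/
theorem exists_coeffG (b : M → Qb) (hb : Descent.IsEquivariant S.act b) :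
    ∃ q : Fin T.n → ℚ, b = ∑ k, algebraMap ℚ Qb (q k) • T.w k :=
  haveI := isGalois_Qb
  Descent.exists_coeff_base T.w T.hw S.act_surjective T.hli T.hspan b hb

omit [Finite M] in
/-- Rational combinations of the basis are equivariant. -/
theorem equivariant_sum (q : Fin T.n → ℚ) :
    Descent.IsEquivariant S.act (∑ k, algebraMap ℚ Qb (q k) • T.w k) := by
  refine Descent.isEquivariant_sum _ _ fun k _ => ?_
  have := (T.hw k).base_smul (q k)
  rwa [algebraMap_smul]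

omit [Finite M] in
/-- Push-forward of a rational combination. -/
theorem push_sum (q : Fin T.n → ℚ) :
    S.push M (∑ k, algebraMap ℚ Qb (q k) • T.w k) =
      ∑ k, algebraMap ℚ_[ℓ] (Kbar ℓ) ((q k : ℚ_[ℓ])) • T.we k := by
  rw [map_sum]
  refine Finset.sum_congr rfl fun k _ => ?_
  rw [S.push_smul, Padic.map_rat]
  rfl

/-- Uniqueness of local coordinates. -/
theorem coeffL_unique (c c' : Fin T.n → ℚ_[ℓ])
    (h : ∑ k, algebraMap ℚ_[ℓ] (Kbar ℓ) (c k) • T.we k =
      ∑ k, algebraMap ℚ_[ℓ] (Kbar ℓ) (c' k) • T.we k) : c = c' := by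
  funext k
  have h2 : ∑ k, (algebraMap ℚ_[ℓ] (Kbar ℓ) (c k) - algebraMap ℚ_[ℓ] (Kbar ℓ) (c' k)) • T.we k
      = 0 := by
    simp only [sub_smul, Finset.sum_sub_distrib, h, sub_self]
  have := Fintype.linearIndependent_iff.mp T.we_li _ h2 k
  exact (algebraMap ℚ_[ℓ] (Kbar ℓ)).injective (sub_eq_zero.mp this)

/-! ### The lattices `ℓ^{-a} ⊕ ℤ_ℓ we k` -/

omit [Finite M] [AddCommGroup M] in
theorem zl_smul_eq {M : Type} (z : ℤ_[ℓ]) (f : M → Kbar ℓ) :
    z • f = algebraMap ℚ_[ℓ] (Kbar ℓ) (z : ℚ_[ℓ]) • f := by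
  funext x
  show z • f x = algebraMap ℚ_[ℓ] (Kbar ℓ) (z : ℚ_[ℓ]) • f x
  rw [Algebra.smul_def, IsScalarTower.algebraMap_apply ℤ_[ℓ] ℚ_[ℓ] (Kbar ℓ)]
  rfl

omit [Finite M] in
/-- `ℓ^{-a} ⊕ ℤ_ℓ we k`. -/
def lat (a : ℕ) : Submodule ℤ_[ℓ] (M → Kbar ℓ) where
  carrier := {f | ∃ c : Fin T.n → ℚ_[ℓ], (∀ k, ‖(ℓ : ℚ_[ℓ]) ^ a * c k‖ ≤ 1) ∧
    f = ∑ k, algebraMap ℚ_[ℓ] (Kbar ℓ) (c k) • T.we k}
  add_mem' := by
    rintro f g ⟨c, hc, rfl⟩ ⟨c', hc', rfl⟩
    refine ⟨c + c', fun k => ?_, ?_⟩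
    · rw [Pi.add_apply, mul_add]
      exact (_root_.Padic.nonarchimedean _ _).trans (max_le (hc k) (hc' k))
    · rw [← Finset.sum_add_distrib]
      exact Finset.sum_congr rfl fun k _ => by rw [Pi.add_apply, map_add, add_smul]
  zero_mem' := ⟨0, fun k => by simp, by simp⟩
  smul_mem' := by
    rintro z f ⟨c, hc, rfl⟩
    refine ⟨fun k => (z : ℚ_[ℓ]) * c k, fun k => ?_, ?_⟩
    · rw [mul_left_comm, norm_mul]
      exact mul_le_one₀ z.2 (norm_nonneg _) (hc k)
    · rw [zl_smul_eq, Finset.smul_sum]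
      exact Finset.sum_congr rfl fun k _ => by rw [smul_smul, map_mul]

omit [Finite M] in
theorem lat_mono {a a' : ℕ} (h : a ≤ a') : T.lat a ≤ T.lat a' := by
  rintro f ⟨c, hc, rfl⟩
  refine ⟨c, fun k => ?_, rfl⟩
  obtain ⟨d, rfl⟩ := Nat.exists_eq_add_of_le h
  rw [pow_add, mul_comm ((ℓ : ℚ_[ℓ]) ^ a), mul_assoc, norm_mul]
  refine mul_le_one₀ ?_ (norm_nonneg _) (hc k)
  rw [norm_pow]
  refine pow_le_one₀ (norm_nonneg _) ?_
  rw [Padic.norm_p]
  exact inv_le_one_of_one_le₀ (by exact_mod_cast (Fact.out : ℓ.Prime).one_lt.le)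

/-- A locally equivariant function lies in some `lat a`. -/
theorem exists_mem_lat (f : M → Kbar ℓ) (hf : Descent.IsEquivariant S.actL f) :
    ∃ a, f ∈ T.lat a := by
  obtain ⟨c, hc⟩ := T.exists_coeffL f hf
  obtain ⟨a, ha⟩ := Padic.exists_pow_mul_norm_le_one ℓ Finset.univ c
  exact ⟨a, c, fun k => ha k (Finset.mem_univ k), hc⟩

/-- **Upper bound**: the local order lies in some `lat a`. -/
theorem exists_le_lat : ∃ a, Subalgebra.toSubmodule S.F.B ≤ T.lat a := by
  classical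
  have hfg : (Subalgebra.toSubmodule S.F.B).FG := (Module.Finite.iff_fg).mp S.F.fg
  obtain ⟨s, hs⟩ := hfg
  have key : ∀ t : Finset (M → Kbar ℓ), (∀ g ∈ t, g ∈ S.F.B) → ∃ a, ∀ g ∈ t, g ∈ T.lat a := by
    intro t
    induction t using Finset.induction_on with
    | empty => exact fun _ => ⟨0, by simp⟩
    | insert g t hgt ih =>
      intro h
      obtain ⟨a, ha⟩ := ih fun g' hg' => h g' (Finset.mem_insert_of_mem hg')
      obtain ⟨a', ha'⟩ := T.exists_mem_lat g
        (S.equivariant_of_mem (h g (Finset.mem_insert_self g t)))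
      refine ⟨max a a', fun g' hg' => ?_⟩
      rcases Finset.mem_insert.mp hg' with rfl | hg'
      · exact T.lat_mono (le_max_right _ _) ha'
      · exact T.lat_mono (le_max_left _ _) (ha g' hg')
  have hsB : ∀ g ∈ s, g ∈ S.F.B := fun g hg => by
    have : g ∈ Submodule.span ℤ_[ℓ] (s : Set (M → Kbar ℓ)) := Submodule.subset_span hg
    rw [hs] at this
    exact this
  obtain ⟨a, ha⟩ := key s hsB
  refine ⟨a, ?_⟩
  rw [← hs, Submodule.span_le]
  exact fun g hg => ha g hg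

/-- **Lower bound**: `ℓ^a • we k` lies in the local order. -/
theorem exists_pow_smul_we_mem :
    ∃ a : ℕ, ∀ k, algebraMap ℚ_[ℓ] (Kbar ℓ) ((ℓ : ℚ_[ℓ]) ^ a) • T.we k ∈ S.F.B := by
  classical
  have hBspan : Submodule.span (Kbar ℓ) (S.F.B : Set (M → Kbar ℓ)) = ⊤ :=
    LinAlg.span_eq_top_of_separates S.F.B S.F.separates
  obtain ⟨g, hgB, hgspan, hgli⟩ := exists_linearIndependent (Kbar ℓ) (S.F.B : Set (M → Kbar ℓ))
  have hfin : Finite g := hgli.finite
  have := Fintype.ofFinite g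
  have hgspan' : Submodule.span (Kbar ℓ) (Set.range (Subtype.val : g → M → Kbar ℓ)) = ⊤ := by
    rw [Subtype.range_coe, hgspan, hBspan]
  have hgeq : ∀ j : g, Descent.IsEquivariant S.actL (j : M → Kbar ℓ) := fun j =>
    S.equivariant_of_mem (hgB j.2)
  have h := fun k => Descent.exists_coeff_base (Subtype.val : g → M → Kbar ℓ) hgeq
    S.actL_surjective hgli hgspan' (T.we k) (T.we_equivariant k)
  choose d hd using h
  obtain ⟨a, ha⟩ := Padic.exists_pow_mul_norm_le_one ℓ (Finset.univ : Finset (Fin T.n × g))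
    (fun kj => d kj.1 kj.2)
  have hz : ∀ (k : Fin T.n) (j : g), ∃ z : ℤ_[ℓ], (z : ℚ_[ℓ]) = (ℓ : ℚ_[ℓ]) ^ a * d k j :=
    fun k j => ⟨⟨_, ha (k, j) (Finset.mem_univ _)⟩, rfl⟩
  choose z hz using hz
  refine ⟨a, fun k => ?_⟩
  have hk : algebraMap ℚ_[ℓ] (Kbar ℓ) ((ℓ : ℚ_[ℓ]) ^ a) • T.we k =
      ∑ j : g, z k j • (j : M → Kbar ℓ) := by
    conv_lhs => rw [hd k, Finset.smul_sum]
    refine Finset.sum_congr rfl fun j _ => ?_
    rw [zl_smul_eq, smul_smul, ← map_mul, hz]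
  rw [hk]
  exact Subalgebra.sum_mem _ fun j _ => by
    have : (j : M → Kbar ℓ) ∈ Subalgebra.toSubmodule S.F.B := hgB j.2
    exact (Subalgebra.toSubmodule S.F.B).smul_mem _ this

end EqBasis

/-! ### Finite generation of the global order -/

/-- **(P1)** The candidate global order is finitely generated over `ℤ_(ℓ)`. -/
theorem B_fg [Finite M] (S : Setting ℓ M) (T : EqBasis S) : (Subalgebra.toSubmodule S.B).FG := by
  classical
  have hℓ : ℓ.Prime := Fact.out
  obtain ⟨a, ha⟩ := T.exists_le_lat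
  have hℓQb : ((ℓ : Qb) ^ a) ≠ 0 := pow_ne_zero _ (by exact_mod_cast hℓ.ne_zero)
  let N : Submodule (Zp ℓ) (M → Qb) :=
    Submodule.span (Zp ℓ) (Set.range fun k => ((ℓ : Qb) ^ a)⁻¹ • T.w k)
  have hN : N.FG := Submodule.fg_span (Set.finite_range _)
  refine hN.of_le ?_
  intro b hb
  obtain ⟨q, hq⟩ := T.exists_coeffG b hb.1
  have hpush : S.push M b ∈ T.lat a := ha hb.2
  obtain ⟨c, hc, hpc⟩ := hpush
  rw [hq, T.push_sum] at hpc
  have hcq : (fun k => ((q k : ℚ) : ℚ_[ℓ])) = c := T.coeffL_unique _ _ hpc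
  -- `ℓ^a q_k ∈ ℤ_(ℓ)`
  have hmem : ∀ k, ((ℓ : ℚ) ^ a * q k) ∈ Zp ℓ := by
    intro k
    show ((ℓ : ℚ) ^ a * q k).den.Coprime ℓ
    rw [← Padic.norm_ratCast_le_one_iff]
    have := hc k
    rw [← hcq] at this
    push_cast
    exact this
  rw [hq]
  refine Submodule.sum_mem _ fun k _ => ?_
  have : algebraMap ℚ Qb (q k) • T.w k =
      (⟨(ℓ : ℚ) ^ a * q k, hmem k⟩ : Zp ℓ) • (((ℓ : Qb) ^ a)⁻¹ • T.w k) := by
    funext x
    simp only [Pi.smul_apply, Algebra.smul_def]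
    rw [IsScalarTower.algebraMap_apply (Zp ℓ) ℚ Qb]
    show algebraMap ℚ Qb (q k) * T.w k x =
      algebraMap ℚ Qb ((ℓ : ℚ) ^ a * q k) * (((ℓ : Qb) ^ a)⁻¹ * T.w k x)
    rw [map_mul, map_pow, map_natCast]
    field_simp
  rw [this]
  exact Submodule.smul_mem _ _ (Submodule.subset_span ⟨k, rfl⟩)

/-! ### Approximation and Nakayama -/

/-- **(P2)** The `ℤ_ℓ`-span of the push-forward of the global order is the local order. -/
theorem span_push_B [Finite M] (S : Setting ℓ M) (T : EqBasis S) :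
    Submodule.span ℤ_[ℓ] ((S.push M) '' (S.B : Set (M → Qb))) = Subalgebra.toSubmodule S.F.B := by
  classical
  have hℓ : ℓ.Prime := Fact.out
  apply le_antisymm
  · rw [Submodule.span_le]
    rintro _ ⟨b, hb, rfl⟩
    exact hb.2
  obtain ⟨a, ha⟩ := T.exists_pow_smul_we_mem
  have hfg : (Subalgebra.toSubmodule S.F.B).FG := (Module.Finite.iff_fg).mp S.F.fg
  have hI : Ideal.span {(ℓ : ℤ_[ℓ])} ≤ (⊥ : Ideal ℤ_[ℓ]).jacobson := by
    rw [IsLocalRing.jacobson_eq_maximalIdeal ⊥ bot_ne_top, PadicInt.maximalIdeal_eq_span_p]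
  refine Submodule.le_of_le_smul_of_le_jacobson_bot hfg hI ?_
  intro β hβ
  have hβ' : β ∈ S.F.B := hβ
  obtain ⟨c, hc⟩ := T.exists_coeffL β (S.equivariant_of_mem hβ')
  have happ := fun k => Padic.exists_rat_approx ℓ (c k) (a + 1)
  choose q hq using happ
  have hz := fun k => Padic.exists_padicInt_of_norm_le_pow ℓ (c k - (q k : ℚ_[ℓ])) (a + 1) (hq k)
  choose z hz using hz
  set b : M → Qb := ∑ k, algebraMap ℚ Qb (q k) • T.w k with hbdef
  have hbeq : Descent.IsEquivariant S.act b := T.equivariant_sum q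
  have hpb : S.push M b = ∑ k, algebraMap ℚ_[ℓ] (Kbar ℓ) ((q k : ℚ_[ℓ])) • T.we k := T.push_sum q
  -- the difference lies in `ℓ 𝔅`
  have hdiff : β - S.push M b ∈
      Ideal.span {(ℓ : ℤ_[ℓ])} • Subalgebra.toSubmodule S.F.B := by
    have h1 : β - S.push M b = ∑ k, ((ℓ : ℤ_[ℓ]) * z k) •
        (algebraMap ℚ_[ℓ] (Kbar ℓ) ((ℓ : ℚ_[ℓ]) ^ a) • T.we k) := by
      rw [hc, hpb, ← Finset.sum_sub_distrib]
      refine Finset.sum_congr rfl fun k _ => ?_
      rw [← sub_smul, ← map_sub, hz k, EqBasis.zl_smul_eq, smul_smul, ← map_mul]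
      congr 2
      push_cast
      ring
    rw [h1]
    refine Submodule.sum_mem _ fun k _ => Submodule.smul_mem_smul ?_ (ha k)
    exact Ideal.mul_mem_right _ _ (Ideal.subset_span rfl)
  have hdiff' : β - S.push M b ∈ Subalgebra.toSubmodule S.F.B := Submodule.smul_le_right hdiff
  have hpbB : S.push M b ∈ S.F.B := by
    have : S.push M b = β - (β - S.push M b) := by abel
    rw [this]
    exact (Subalgebra.toSubmodule S.F.B).sub_mem hβ hdiff'
  have hbB : b ∈ S.B := ⟨hbeq, hpbB⟩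
  have : β = S.push M b + (β - S.push M b) := by abel
  rw [this]
  exact Submodule.add_mem_sup (Submodule.subset_span ⟨b, hbB, rfl⟩) hdiff

end Fermat.Agent.T1.Glue44
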