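/-
Programme T1a (S19), layer (A) ALG, brick A3 = GLUE (helper44).

`Main`: **GLUE**.  `ι : ℚ̄ → K̄` a field embedding, `res : G_ℓ → G_ℚ` the attached restriction map.
A finite `G_ℚ`-module (additive action with open stabilisers) whose restriction to `G_ℓ` has a local
function order over `ℤ_ℓ` has a function order over `ℤ_(ℓ)`.

Proof: `B = {b : M → ℚ̄ equivariant | ι ∘ b ∈ 𝔅}`; Galois descent gives an equivariant basis
(`Descent`, `Lattice.exists_eqBasis`), lattice comparison gives finite generation (`Lattice.B_fg`),
rational approximation and Nakayama give `ℤ_ℓ · ι(B) = 𝔅` (`Lattice.span_push_B`), and the Hopf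
structure descends by comparing rational coordinates (`Assemble`).
-/
import Mathlib
import Fermat.Agent.T1.Glue44.Lattice
import Fermat.Agent.T1.Glue44.Assemble

set_option autoImplicit false

namespace Fermat.Agent.T1.Glue44

open Fermat.Agent.TW.B5.Iface Fermat.Agent.Flat44 Fermat.Agent.T1.AlgIface47

/-- GLUE in the bundled form. -/
theorem funOrder_of_setting {ℓ : ℕ} [Fact ℓ.Prime] {M : Type} [AddCommGroup M] [Finite M]
    (S : Setting ℓ M)
    (hopen : ∀ x : M, ∃ L : IntermediateField ℚ Qb, FiniteDimensional ℚ L ∧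
      ∀ σ : GQ, (∀ e ∈ L, σ e = e) → S.act σ x = x) : Nonempty (FunOrder ℓ M S.act) := by
  obtain ⟨T⟩ := exists_eqBasis S hopen
  exact funOrder_of_lattice S (B_fg S T) (span_push_B S T)

/-- **GLUE** (brick A3 of the S19 programme), in the form of `AlgIface47.GLUE`. -/
theorem glue (ℓ : ℕ) [Fact ℓ.Prime] : GLUE ℓ := by
  intro ι res hres M _ _ act h1 hmul hadd hopen hF
  obtain ⟨F⟩ := hF
  exact funOrder_of_setting
    { ι := ι, res := res, hres := hres, act := act, act_one := h1, act_mul := hmul,
      act_add := hadd, F := F } hopen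

end Fermat.Agent.T1.Glue44
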